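/-
S20 core (G5), part: the family of translates as a `CuspFamily` for `x ↦ T⁻¹ • x`, and the number of
orbits of that permutation (= number of cusps).
-/
import Fermat.Agent.S20.GensRank
import Fermat.Agent.S20.CuspFamily

set_option autoImplicit false
set_option linter.unusedSectionVars false

namespace Fermat.Agent.S20

open UpperHalfPlane hiding I
open ModularForm CongruenceSubgroup Filter Topology Complex
open scoped MatrixGroups ModularForm Manifold Real

namespace Gens

variable {N : ℕ} [NeZero N]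

set_option backward.isDefEq.respectTransparency.types false in
/-- slashing with `T` is translation by `1`. -/
lemma slash_T_apply (F : ℍ → ℂ) (k : ℤ) (z : ℍ) :
    (F ∣[k] ModularGroup.T) z = F ((1 : ℝ) +ᵥ z) := by
  rw [ModularForm.SL_slash_apply, denom, UpperHalfPlane.modular_T_smul, ModularGroup.T]
  simp

/-- the family of translates of a form of level `N`, as a `CuspFamily` for `x ↦ T⁻¹ • x`. -/
noncomputable def famOf {k : ℤ} {f : ℍ → ℂ} (hf : IsMF N k f) : CuspFamily (permT N) :=
  ⟨fun x => tr N k f x, by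
    intro x
    refine ⟨hf.tr_holo x, hf.tr_bdd x, fun z => ?_⟩
    show tr N k f x ((1 : ℝ) +ᵥ z) = tr N k f ((permT N) x) z
    rw [← slash_T_apply (tr N k f x) k z, hf.tr_slash]
    rfl⟩

@[simp] lemma famOf_apply {k : ℤ} {f : ℍ → ℂ} (hf : IsMF N k f) (x : CosetX N) :
    (famOf hf).1 x = tr N k f x := rfl

lemma numOrbits_permT : numOrbits (permT N) = ModularCurve.cuspCount N := by
  rw [← card_orbits_T N]
  unfold numOrbits
  refine Nat.card_congr (Quotient.congr (Equiv.refl _) ?_)
  intro x y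
  show (MulAction.orbitRel (Subgroup.zpowers (permT N)) (CosetX N)) x y ↔
    (MulAction.orbitRel (Subgroup.zpowers ModularGroup.T) (CosetX N)) x y
  rw [MulAction.orbitRel_apply, MulAction.orbitRel_apply, MulAction.mem_orbit_iff,
    MulAction.mem_orbit_iff]
  have hpow : ∀ (k : ℤ) (y : CosetX N), ((permT N) ^ k) y = (ModularGroup.T ^ (-k)) • y := by
    intro k y
    have h1 : (permT N) ^ k = MulAction.toPerm ((ModularGroup.T⁻¹) ^ k) := by
      unfold permT
      exact (map_zpow (MulAction.toPermHom SL(2, ℤ) (CosetX N)) (ModularGroup.T⁻¹) k).symm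
    rw [h1, inv_zpow', MulAction.toPerm_apply]
  constructor
  · rintro ⟨⟨g, hg⟩, hgx⟩
    obtain ⟨k, rfl⟩ := Subgroup.mem_zpowers_iff.mp hg
    refine ⟨⟨ModularGroup.T ^ (-k), Subgroup.mem_zpowers_iff.mpr ⟨-k, rfl⟩⟩, ?_⟩
    have : ((permT N) ^ k) y = x := hgx
    rw [hpow] at this
    exact this
  · rintro ⟨⟨g, hg⟩, hgx⟩
    obtain ⟨k, rfl⟩ := Subgroup.mem_zpowers_iff.mp hg
    refine ⟨⟨(permT N) ^ (-k), Subgroup.mem_zpowers_iff.mpr ⟨-k, rfl⟩⟩, ?_⟩
    have : (ModularGroup.T ^ k) • y = x := hgx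
    show ((permT N) ^ (-k)) y = x
    rw [hpow, neg_neg]
    exact this

end Gens

end Fermat.Agent.S20
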