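/-
S20 / GensCusp: division by the discriminant `Δ` of a form all of whose translates are `O(q)` at `i∞`.
-/
import Fermat.Agent.S20.Basics
import Mathlib.NumberTheory.ModularForms.Discriminant

set_option autoImplicit false

namespace Fermat.Agent.S20

open UpperHalfPlane ModularForm CongruenceSubgroup Filter Topology
open scoped MatrixGroups ModularForm Manifold Real

/-- `Δ` is invariant under the weight `12` slash action of `SL(2, ℤ)`. -/
lemma divDisc_discriminant_slash (γ : SL(2, ℤ)) :
    ModularForm.discriminant ∣[(12 : ℤ)] γ = ModularForm.discriminant :=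
  SlashInvariantForm.slash_action_generators_SL2Z discriminant_S_invariant
    discriminant_T_invariant γ

lemma divDisc_discriminant_mdiff : MDiff ModularForm.discriminant :=
  CuspForm.discriminant.holo'

/-- `‖exp (2πiz)‖ = exp (-2π im z)`. -/
lemma divDisc_norm_exp (z : ℍ) :
    ‖Complex.exp (2 * π * Complex.I * z)‖ = Real.exp (-2 * π * z.im) := by
  rw [Complex.norm_exp]
  congr 1
  simp [Complex.mul_re, Complex.mul_im]

theorem exists_isMF_discriminant_mul_eq {N : ℕ} [NeZero N] {k : ℤ} {f : ℍ → ℂ} (hf : IsMF N k f)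
    (hO : ∀ x : SL(2, ℤ) ⧸ Gamma0 N,
      tr N k f x =O[atImInfty] (fun z : ℍ => Complex.exp (2 * π * Complex.I * z))) :
    ∃ h : ℍ → ℂ, IsMF N (k - 12) h ∧ f = ModularForm.discriminant * h := by
  have hΔne : ∀ z : ℍ, ModularForm.discriminant z ≠ 0 := discriminant_ne_zero
  let h : ℍ → ℂ := fun z => f z / ModularForm.discriminant z
  have hmul : f = ModularForm.discriminant * h := by
    ext z
    simp only [Pi.mul_apply, h]
    rw [mul_div_cancel₀ _ (hΔne z)]
  have hholo : MDiff h := by
    have h1 := UpperHalfPlane.mdifferentiable_iff.1 hf.holo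
    have h2 := UpperHalfPlane.mdifferentiable_iff.1 divDisc_discriminant_mdiff
    rw [UpperHalfPlane.mdifferentiable_iff]
    have h3 : DifferentiableOn ℂ
        (fun w => (f ∘ ofComplex) w / (ModularForm.discriminant ∘ ofComplex) w)
        upperHalfPlaneSet := by
      refine DifferentiableOn.div h1 h2 ?_
      intro w _
      exact hΔne _
    exact h3.congr fun w _ => rfl
  -- the slash relation `f ∣[k] γ = Δ * (h ∣[k - 12] γ)` for all `γ`
  have hslash : ∀ γ : SL(2, ℤ), f ∣[k] γ = ModularForm.discriminant * (h ∣[k - 12] γ) := by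
    intro γ
    have h1 : f ∣[k] γ = (ModularForm.discriminant * h) ∣[(12 : ℤ) + (k - 12)] γ := by
      rw [← hmul]
      congr 1
      ring
    rw [h1, mul_slash_SL2, divDisc_discriminant_slash]
  have hslash' : ∀ (γ : SL(2, ℤ)) (z : ℍ),
      (h ∣[k - 12] γ) z = (f ∣[k] γ) z / ModularForm.discriminant z := by
    intro γ z
    have := congrFun (hslash γ) z
    simp only [Pi.mul_apply] at this
    rw [this, mul_div_cancel_left₀ _ (hΔne z)]
  refine ⟨h, ⟨hholo, ?_, ?_⟩, hmul⟩
  · intro γ hγ
    ext z
    rw [hslash' γ z, hf.slash γ hγ]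
  · intro γ
    have h1 : (f ∣[k] γ) =O[atImInfty] (fun z : ℍ => Complex.exp (2 * π * Complex.I * z)) := by
      rw [hf.slash_eq_tr γ]
      exact hO _
    have h2 : (fun z : ℍ => Complex.exp (2 * π * Complex.I * z)) =O[atImInfty]
        ModularForm.discriminant := by
      refine Asymptotics.IsBigO.trans ?_ exp_isBigO_discriminant
      refine Asymptotics.IsBigO.of_bound 1 (Eventually.of_forall fun z => ?_)
      rw [divDisc_norm_exp, one_mul, Real.norm_eq_abs, abs_of_pos (Real.exp_pos _)]
    have h3 : (f ∣[k] γ) =O[atImInfty] ModularForm.discriminant := h1.trans h2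
    obtain ⟨c, hc⟩ := h3.bound
    refine Asymptotics.IsBigO.of_bound c ?_
    filter_upwards [hc] with z hz
    rw [hslash' γ z, norm_div]
    have hpos : 0 < ‖ModularForm.discriminant z‖ := norm_pos_iff.2 (hΔne z)
    rw [div_le_iff₀ hpos]
    simpa using hz

end Fermat.Agent.S20
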