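/-
S20 core (G5), Step A: the leading-coefficient matrix of the generators at `i∞` is nonsingular.
If `∑ c_i L(fam_i) = 0`, then `f = ∑ c_i G_i F_i` (`G_i` monomials of weight `K - κ_i`, `G_i → 1`) has
`L (fam f) = 0`, so all translates of `f` are `O(q)`, so `f = Δ h`; by (G1) `c_i G_i = Δ Q_i`; the limit at `i∞`
gives `c_i = 0`.  (helper43)
-/
import Fermat.Agent.S20.GensCusp.Fam
import Fermat.Agent.S20.GensCusp.DivDisc
import Fermat.Agent.S20.LevelOne

set_option autoImplicit false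
set_option linter.unusedSectionVars false

namespace Fermat.Agent.S20

open UpperHalfPlane hiding I
open ModularForm CongruenceSubgroup Filter Topology Complex Asymptotics
open scoped MatrixGroups ModularForm Manifold Real

local notation "Δ" => ModularForm.discriminant

namespace Gens

variable {N : ℕ} [NeZero N] (𝔊 : Gens N)

/-- a level one form is bounded at `i∞`. -/
lemma leadDet_bdd {k : ℤ} {Q : ℍ → ℂ} (hQ : IsMF 1 k Q) : IsBoundedAtImInfty Q := by
  have h := hQ.bdd 1
  rwa [SlashAction.slash_one] at h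

/-- if `c • G = Δ * Q` with `G → 1` and `Q` bounded at `i∞`, then `c = 0`. -/
lemma leadDet_eq_zero_of_smul_eq {c : ℂ} {G Q : ℍ → ℂ} (hG : Tendsto G atImInfty (𝓝 1))
    (hQ : IsBoundedAtImInfty Q) (h : c • G = Δ * Q) : c = 0 := by
  have h1 : Tendsto (c • G) atImInfty (𝓝 (c • (1 : ℂ))) := hG.const_smul c
  have hΔ : ZeroAtFilter atImInfty (Δ : ℍ → ℂ) := ModularForm.discriminant_isZeroAtImInfty
  have h2 : Tendsto ((Δ : ℍ → ℂ) * Q) atImInfty (𝓝 0) := hΔ.mul_boundedAtFilter hQ
  rw [h] at h1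
  have := tendsto_nhds_unique h1 h2
  simpa using this

/-- **Step A.** The matrix of leading coefficients of the generators is nonsingular.  Here `L` is any linear
map with the properties (∞1), (∞2) of `exists_leadingCoeff`. -/
lemma det_leadingCoeff_ne_zero [Fintype (CosetX N)] [DecidableEq (CosetX N)]
    (L : CuspFamily (permT N) →ₗ[ℂ] (CosetX N → ℂ))
    (h1 : ∀ f : CuspFamily (permT N), L f = 0 →
      ∀ x, (f.1 x) =O[atImInfty] (fun z : ℍ => Complex.exp (2 * π * I * z)))
    (h2 : ∀ (f Pf : CuspFamily (permT N)) (P : ℍ → ℂ) (p : ℂ), Tendsto P atImInfty (𝓝 p) →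
      (∀ x, Pf.1 x = P * f.1 x) → L Pf = p • L f)
    (e : CosetX N ≃ 𝔊.J) :
    Matrix.det (Matrix.of fun i y => L (famOf (𝔊.isMF (e i))) y) ≠ 0 := by
  intro hdet
  obtain ⟨c, hc0, hc⟩ := Matrix.exists_vecMul_eq_zero_iff.mpr hdet
  -- weights
  set K : ℤ := 4 + ∑ i, 𝔊.κ (e i) with hK
  have hκle : ∀ j, 𝔊.κ j ≤ ∑ i, 𝔊.κ (e i) := by
    intro j
    have := Finset.single_le_sum (f := fun i => 𝔊.κ (e i)) (fun i _ => 𝔊.κ_nonneg (e i))
      (Finset.mem_univ (e.symm j))
    simpa using this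
  have hm0 : ∀ j, 0 ≤ K - 𝔊.κ j := fun j => by have := hκle j; omega
  have hm2 : ∀ j, K - 𝔊.κ j ≠ 2 := fun j => by have := hκle j; omega
  have hmev : ∀ j, Even (K - 𝔊.κ j) := by
    intro j
    refine Even.sub (Even.add (by decide) (Finset.even_sum _ fun i _ => 𝔊.κ_even (e i)))
      (𝔊.κ_even j)
  choose G hG hGlim _ using fun j => exists_monomial (hm0 j) (hm2 j) (hmev j)
  -- the forms G_j F_j
  have hGF : ∀ j, IsMF N K (G j * 𝔊.F j) := fun j =>
    ((hG j).of_one.mul (𝔊.isMF j)).cast (by ring)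
  -- the form f
  let f : ℍ → ℂ := ∑ i, c i • (G (e i) * 𝔊.F (e i))
  have hf : IsMF N K f := IsMF.sum _ fun i _ => (hGF (e i)).smul (c i)
  -- famOf f = ∑ c i • famOf (G F)
  have hfam : famOf hf = ∑ i, c i • famOf (hGF (e i)) := by
    apply Subtype.ext
    funext x
    rw [famOf_apply]
    simp only [Submodule.coe_sum, Submodule.coe_smul, Finset.sum_apply, Pi.smul_apply, famOf_apply]
    rw [tr_sum]
    refine Finset.sum_congr rfl fun i _ => ?_
    rw [tr_smul]
  have hLGF : ∀ j, L (famOf (hGF j)) = L (famOf (𝔊.isMF j)) := by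
    intro j
    have := h2 (famOf (𝔊.isMF j)) (famOf (hGF j)) (G j) 1 (hGlim j) (fun x => by
      rw [famOf_apply, famOf_apply]
      exact GensRankAux.tr_mul_of_one' (by ring) (hG j) _ x)
    rw [this, one_smul]
  have hLf : L (famOf hf) = 0 := by
    rw [hfam, map_sum]
    simp only [map_smul, hLGF]
    funext y
    have := congrFun hc y
    simpa [Matrix.vecMul, dotProduct, Finset.sum_apply] using this
  have hO := h1 _ hLf
  obtain ⟨h, hh, hfh⟩ := exists_isMF_discriminant_mul_eq hf (fun x => by simpa using hO x)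
  -- transport to J
  let _instJ : Fintype 𝔊.J := Fintype.ofEquiv _ e
  have hsum : ∑ j ∈ (Finset.univ : Finset 𝔊.J), (c (e.symm j)) • (G j * 𝔊.F j) = Δ * h := by
    rw [← hfh]
    show _ = ∑ i, c i • (G (e i) * 𝔊.F (e i))
    rw [← Equiv.sum_comp e]
    simp
  have key := 𝔊.exists_eq_mul_of_sum_eq_mul K 12 Finset.univ (fun j => c (e.symm j)) G
    (fun j _ => hG j) Δ h isMF_discriminant hh hsum
  apply hc0
  funext i
  obtain ⟨Q, hQ, hQeq⟩ := key (e i) (Finset.mem_univ _)
  have := leadDet_eq_zero_of_smul_eq (hGlim (e i)) (leadDet_bdd hQ) hQeq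
  simpa using this

end Gens

end Fermat.Agent.S20
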