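/-
S20 / GensCusp, helper lemmas (helper44 for helper43):
the determinant of a matrix of holomorphic (resp. bounded at `i∞`) functions on `ℍ` is
holomorphic (resp. bounded at `i∞`).
-/
import Mathlib

set_option autoImplicit false

namespace Fermat.Agent.S20

open UpperHalfPlane Filter
open scoped Manifold

/-- The determinant, written pointwise as a finite sum of signed finite products of functions. -/
lemma detHolo_det_eq {X : Type} [Fintype X] [DecidableEq X] (A : X → X → ℍ → ℂ) :
    (fun z : ℍ => Matrix.det (Matrix.of fun i x => A i x z)) =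
      ∑ σ : Equiv.Perm X,
        (Function.const ℍ ((Equiv.Perm.sign σ : ℤ) : ℂ)) * ∏ i : X, A (σ i) i := by
  funext z
  rw [Matrix.det_apply]
  simp only [Finset.sum_apply, Pi.mul_apply, Finset.prod_apply, Function.const_apply,
    Matrix.of_apply]
  refine Finset.sum_congr rfl fun σ _ => ?_
  rw [Units.smul_def, zsmul_eq_mul]

lemma mdiff_det {X : Type} [Fintype X] [DecidableEq X] (A : X → X → ℍ → ℂ)
    (hA : ∀ i x, MDiff (A i x)) :
    MDiff (fun z : ℍ => Matrix.det (Matrix.of fun i x => A i x z)) := by
  rw [detHolo_det_eq]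
  refine MDifferentiable.sum fun σ _ => ?_
  refine MDifferentiable.mul mdifferentiable_const ?_
  exact MDifferentiable.prod fun i _ => hA (σ i) i

lemma isBoundedAtImInfty_det {X : Type} [Fintype X] [DecidableEq X] (A : X → X → ℍ → ℂ)
    (hA : ∀ i x, IsBoundedAtImInfty (A i x)) :
    IsBoundedAtImInfty (fun z : ℍ => Matrix.det (Matrix.of fun i x => A i x z)) := by
  rw [detHolo_det_eq]
  unfold IsBoundedAtImInfty at hA ⊢
  refine (boundedFilterSubalgebra ℂ atImInfty).sum_mem fun σ _ => ?_
  refine (boundedFilterSubalgebra ℂ atImInfty).mul_mem ?_ ?_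
  · exact const_boundedAtFilter atImInfty _
  · exact BoundedAtFilter.prod (l := atImInfty) (f := fun i => A (σ i) i) Finset.univ
      fun i _ => hA (σ i) i

end Fermat.Agent.S20
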