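/-
S20 core (G5): the matrix of values of the translates of the generators.  (helper43)
-/
import Fermat.Agent.S20.GensCusp.Fam

set_option autoImplicit false
set_option linter.unusedSectionVars false

namespace Fermat.Agent.S20

open UpperHalfPlane hiding I
open ModularForm CongruenceSubgroup Filter Topology Complex
open scoped MatrixGroups ModularForm Manifold Real

namespace Gens

variable {N : ℕ} [NeZero N] (𝔊 : Gens N)

/-- the matrix of values of the translates of the generators, rows indexed via `e : X ≃ J`. -/
noncomputable def evalMatrix (e : CosetX N ≃ 𝔊.J) (z : ℍ) : Matrix (CosetX N) (CosetX N) ℂ :=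
  Matrix.of fun i x => 𝔊.vec (e i) z x

omit [NeZero N] in
@[simp] lemma evalMatrix_apply (e : CosetX N ≃ 𝔊.J) (z : ℍ) (i x : CosetX N) :
    𝔊.evalMatrix e z i x = 𝔊.vec (e i) z x := rfl

end Gens

end Fermat.Agent.S20
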