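/-
S20 core (G5), Step B: the weight computation.  (helper50)
If `det (evalMatrix)² · exp(-2πi (n - c) z)` has a nonzero limit at `i∞`, then `∑ κ = 6 (n - c)`:
`Φ = D² Δ^{-(n-c)}` and `Ψ = Φ⁻¹` are both level-one forms, of weights `W` and `-W`, hence `W = 0`.
-/
import Fermat.Agent.S20.GensCusp.EvalMatrix
import Fermat.Agent.S20.GensCusp.DetHolo

set_option autoImplicit false
set_option linter.unusedSectionVars false

namespace Fermat.Agent.S20

open UpperHalfPlane hiding I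
open ModularForm CongruenceSubgroup Filter Topology Complex
open scoped MatrixGroups ModularForm Manifold Real

namespace Gens

variable {N : ℕ} [NeZero N] (𝔊 : Gens N)

section weight

variable [Fintype (CosetX N)] [DecidableEq (CosetX N)] (e : CosetX N ≃ 𝔊.J)

lemma weight_det_ne_zero (z : ℍ) : (𝔊.evalMatrix e z).det ≠ 0 := by
  have h : IsUnit (𝔊.evalMatrix e z).det := by
    rw [← Matrix.isUnit_iff_isUnit_det, ← Matrix.linearIndependent_rows_iff_isUnit]
    exact (𝔊.linearIndependent_vec z).comp e e.injective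
  exact h.ne_zero

lemma weight_mdiff_det : MDiff (fun z : ℍ => (𝔊.evalMatrix e z).det) :=
  mdiff_det (fun i x => tr N (𝔊.κ (e i)) (𝔊.F (e i)) x)
    (fun i x => (𝔊.isMF (e i)).tr_holo x)

lemma weight_prod_zpow (a : ℂ) (ha : a ≠ 0) (s : Finset (CosetX N)) (k : CosetX N → ℤ) :
    ∏ i ∈ s, a ^ k i = a ^ ∑ i ∈ s, k i := by
  classical
  induction s using Finset.induction_on with
  | empty => simp
  | insert b s hb ih =>
    rw [Finset.prod_insert hb, Finset.sum_insert hb, ih, zpow_add₀ ha]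

lemma weight_evalMatrix_smul (g : SL(2, ℤ)) (z : ℍ) :
    𝔊.evalMatrix e (g • z) =
      Matrix.diagonal (fun i => denom g z ^ 𝔊.κ (e i)) *
        (𝔊.evalMatrix e z).submatrix id (MulAction.toPerm g⁻¹ : Equiv.Perm (CosetX N)) := by
  ext i x
  rw [Matrix.diagonal_mul, Matrix.submatrix_apply, evalMatrix_apply, evalMatrix_apply,
    𝔊.vec_smul]
  rfl

lemma weight_det_sq_smul (g : SL(2, ℤ)) (z : ℍ) :
    (𝔊.evalMatrix e (g • z)).det ^ 2 =
      denom g z ^ (2 * ∑ i, 𝔊.κ (e i)) * (𝔊.evalMatrix e z).det ^ 2 := by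
  rw [weight_evalMatrix_smul, Matrix.det_mul, Matrix.det_diagonal, Matrix.det_permute',
    weight_prod_zpow _ (denom_ne_zero g z)]
  have hs : (((Equiv.Perm.sign (MulAction.toPerm g⁻¹ : Equiv.Perm (CosetX N)) : ℤˣ) : ℤ) : ℂ) ^ 2
      = 1 := by
    rcases Int.units_eq_one_or (Equiv.Perm.sign (MulAction.toPerm g⁻¹ : Equiv.Perm (CosetX N)))
      with h | h <;> rw [h] <;> simp
  have h2 : denom g z ^ (2 * ∑ i, 𝔊.κ (e i)) = (denom g z ^ (∑ i, 𝔊.κ (e i))) ^ 2 := by
    rw [mul_comm, zpow_mul]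
    rfl
  rw [h2]
  linear_combination (denom g z ^ (∑ i, 𝔊.κ (e i))) ^ 2 * (𝔊.evalMatrix e z).det ^ 2 * hs


/-- `Δ(g • z) = Δ(z) · denom^12`. -/
lemma weight_discriminant_smul (g : SL(2, ℤ)) (z : ℍ) :
    ModularForm.discriminant (g • z) = ModularForm.discriminant z * denom g z ^ (12 : ℤ) :=
  isMF_discriminant.apply_smul_eq_mul g z

/-- holomorphy of an integer power of `Δ` -/
lemma weight_mdiff_discriminant_zpow (m : ℤ) :
    MDiff (fun z : ℍ => ModularForm.discriminant z ^ m) := by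
  rw [UpperHalfPlane.mdifferentiable_iff]
  have h2 := UpperHalfPlane.mdifferentiable_iff.1 isMF_discriminant.holo
  intro w hw
  have h3 : DifferentiableWithinAt ℂ (fun w => ((ModularForm.discriminant ∘ ofComplex) w) ^ m)
      upperHalfPlaneSet w :=
    (h2 w hw).zpow (Or.inl (discriminant_ne_zero _))
  exact h3

/-- `Δ^m · exp(-2πi m z)⁻¹ → 1`, in the form: `Δ(z)^(-m) · exp(2πi m z) → 1`. -/
lemma weight_tendsto_discriminant_zpow (m : ℤ) :
    Tendsto (fun z : ℍ => ModularForm.discriminant z ^ (-m) *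
        Complex.exp ((2 * π * I * (m : ℂ)) * z)) atImInfty (𝓝 1) := by
  have h1 := tendsto_discriminant_mul_exp
  have h2 : Tendsto (fun z : ℍ =>
      (ModularForm.discriminant z * Complex.exp (-(2 * π * I) * z)) ^ (-m)) atImInfty
      (𝓝 ((1 : ℂ) ^ (-m))) :=
    (continuousAt_zpow₀ (1 : ℂ) (-m) (Or.inl one_ne_zero)).tendsto.comp h1
  rw [one_zpow] at h2
  refine h2.congr fun z => ?_
  rw [mul_zpow, ← Complex.exp_int_mul]
  congr 2
  push_cast
  ring

/-- the function `Φ = D² Δ^{-m}` -/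
noncomputable def weightPhi (m : ℤ) : ℍ → ℂ :=
  fun z => (𝔊.evalMatrix e z).det ^ 2 * ModularForm.discriminant z ^ (-m)

/-- the function `Ψ = Δ^m D⁻²` -/
noncomputable def weightPsi (m : ℤ) : ℍ → ℂ :=
  fun z => ModularForm.discriminant z ^ m * ((𝔊.evalMatrix e z).det ^ 2)⁻¹

lemma weightPhi_mul_weightPsi (m : ℤ) : 𝔊.weightPhi e m * 𝔊.weightPsi e m = 1 := by
  funext z
  simp only [Pi.mul_apply, Pi.one_apply, weightPhi, weightPsi]
  have h1 := 𝔊.weight_det_ne_zero e z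
  have h2 : ModularForm.discriminant z ≠ 0 := discriminant_ne_zero z
  rw [zpow_neg]
  field_simp

lemma weightPhi_smul (m : ℤ) (g : SL(2, ℤ)) (z : ℍ) :
    𝔊.weightPhi e m (g • z) =
      𝔊.weightPhi e m z * denom g z ^ (2 * ∑ i, 𝔊.κ (e i) - 12 * m) := by
  simp only [weightPhi]
  rw [𝔊.weight_det_sq_smul e g z, weight_discriminant_smul, mul_zpow, ← zpow_mul,
    zpow_sub₀ (denom_ne_zero g z)]
  have h3 : denom g z ^ ((12 : ℤ) * -m) = (denom g z ^ (12 * m))⁻¹ := by
    rw [mul_neg, zpow_neg]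
  rw [h3]
  ring

lemma weightPsi_smul (m : ℤ) (g : SL(2, ℤ)) (z : ℍ) :
    𝔊.weightPsi e m (g • z) =
      𝔊.weightPsi e m z * denom g z ^ (-(2 * ∑ i, 𝔊.κ (e i) - 12 * m)) := by
  simp only [weightPsi]
  rw [𝔊.weight_det_sq_smul e g z, weight_discriminant_smul, mul_zpow, ← zpow_mul, mul_inv,
    neg_sub, zpow_sub₀ (denom_ne_zero g z)]
  ring

/-- a holomorphic function with the automorphy of weight `W` for all of `SL(2,ℤ)` which is bounded at
`i∞` is a level-one form. -/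
lemma weight_isMF_of_smul {W : ℤ} {f : ℍ → ℂ} (hholo : MDiff f)
    (hsmul : ∀ (g : SL(2, ℤ)) (z : ℍ), f (g • z) = f z * denom g z ^ W)
    (hbdd : IsBoundedAtImInfty f) : IsMF 1 W f := by
  have hslash : ∀ g : SL(2, ℤ), f ∣[W] g = f := by
    intro g
    funext z
    rw [ModularForm.SL_slash_apply, hsmul, mul_assoc, ← zpow_add₀ (denom_ne_zero g z),
      add_neg_cancel, zpow_zero, mul_one]
  exact ⟨hholo, fun γ _ => hslash γ, fun γ => by rw [hslash γ]; exact hbdd⟩


lemma sum_κ_of_tendsto {a : ℂ} (ha : a ≠ 0)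
    (hlim : Tendsto (fun z : ℍ => (Matrix.det (𝔊.evalMatrix e z)) ^ 2 *
        Complex.exp (-(2 * π * I * ((Fintype.card (CosetX N) : ℂ) - (numOrbits (permT N) : ℂ))) * z))
      atImInfty (𝓝 a)) :
    ∑ i, 𝔊.κ (e i) = 6 * ((Fintype.card (CosetX N) : ℤ) - (numOrbits (permT N) : ℤ)) := by
  set m : ℤ := (Fintype.card (CosetX N) : ℤ) - (numOrbits (permT N) : ℤ) with hm
  have hmC : ((Fintype.card (CosetX N) : ℂ) - (numOrbits (permT N) : ℂ)) = (m : ℂ) := by
    rw [hm]; push_cast; ring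
  rw [hmC] at hlim
  -- the limit of `Φ`
  have hΦlim : Tendsto (𝔊.weightPhi e m) atImInfty (𝓝 a) := by
    have h := hlim.mul (weight_tendsto_discriminant_zpow m)
    rw [mul_one] at h
    refine h.congr fun z => ?_
    simp only [weightPhi]
    have hexp : Complex.exp (-(2 * π * I * (m : ℂ)) * z) * Complex.exp ((2 * π * I * (m : ℂ)) * z)
        = 1 := by
      rw [← Complex.exp_add]
      simp
    linear_combination ((𝔊.evalMatrix e z).det ^ 2 * ModularForm.discriminant z ^ (-m)) * hexp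
  have hΨlim : Tendsto (𝔊.weightPsi e m) atImInfty (𝓝 a⁻¹) := by
    have h := hΦlim.inv₀ ha
    refine h.congr fun z => ?_
    simp only [weightPhi, weightPsi]
    rw [mul_inv, zpow_neg, inv_inv, mul_comm]
  have hΦ : IsMF 1 (2 * ∑ i, 𝔊.κ (e i) - 12 * m) (𝔊.weightPhi e m) := by
    refine weight_isMF_of_smul ?_ (𝔊.weightPhi_smul e m) ?_
    · exact ((𝔊.weight_mdiff_det e).pow 2).mul (weight_mdiff_discriminant_zpow (-m))
    · exact hΦlim.isBigO_one ℝ
  have hΨ : IsMF 1 (-(2 * ∑ i, 𝔊.κ (e i) - 12 * m)) (𝔊.weightPsi e m) := by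
    refine weight_isMF_of_smul ?_ (𝔊.weightPsi_smul e m) ?_
    · refine (weight_mdiff_discriminant_zpow m).mul ?_
      have h1 : MDiff (fun z : ℍ => ((𝔊.evalMatrix e z).det ^ 2)) := (𝔊.weight_mdiff_det e).pow 2
      have h2 : (fun z : ℍ => ((𝔊.evalMatrix e z).det ^ 2)⁻¹) =
          (fun _ : ℍ => (1 : ℂ)) / (fun z : ℍ => ((𝔊.evalMatrix e z).det ^ 2)) := by
        funext z
        simp
      rw [h2]
      exact MDifferentiable.div mdifferentiable_const h1
        (fun z => pow_ne_zero 2 (𝔊.weight_det_ne_zero e z))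
    · exact hΨlim.isBigO_one ℝ
  have hW := weight_eq_zero_of_mul_eq_one hΦ hΨ (𝔊.weightPhi_mul_weightPsi e m)
  omega

end weight

end Gens

end Fermat.Agent.S20
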